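import Mathlib
import Fermat.Agent.MUL.S48.W.A.Lattice

set_option autoImplicit false

/-!
# S48 (P2): the exact statement of the weight-one Eisenstein series  (helper33)

For every ODD Dirichlet character `ψ` mod `N` (primitive or not) there is a modular form
`E₁^ψ` of weight one on `Γ₁(N)` with nebentypus `ψ` (`E ∣[1] γ = ψ(d) E` for `γ ∈ Γ₀(N)`) and

  `E₁^ψ = -(1/(2N)) ∑_{a < N} a ψ(a)  +  ∑_{n ≥ 1} (∑_{d ∣ n} ψ(d)) qⁿ`.

`(UpperHalfPlane.qExpansion 1 E).coeff n` is (by definition) the Prelude's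
`ModularFormClass.qCoeff E n`.  Proof: `Fermat/Agent/S48/Eis1/Main.lean` (`eis1Statement`).
-/

open scoped MatrixGroups ModularForm
open UpperHalfPlane

namespace Fermat.Agent.S48.Eis1

/-- **(P2)** the weight-one Eisenstein series `E₁^ψ`. -/
def Eis1Statement : Prop :=
  ∀ (N : ℕ) [NeZero N] (ψ : DirichletCharacter ℂ N), ψ.Odd →
    ∃ E : ModularForm (CongruenceSubgroup.Gamma1 N) 1,
      (∀ γ : SL(2, ℤ), γ ∈ CongruenceSubgroup.Gamma0 N → ∀ z : ℍ,
          ((E : ℍ → ℂ) ∣[(1 : ℤ)] γ) z = ψ ((γ 1 1 : ℤ) : ZMod N) * E z) ∧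
      (UpperHalfPlane.qExpansion 1 E).coeff 0
          = -(1 / (2 * (N : ℂ))) * ∑ a ∈ Finset.range N, (a : ℂ) * ψ (a : ZMod N) ∧
      ∀ n : ℕ, 0 < n →
        (UpperHalfPlane.qExpansion 1 E).coeff n = ∑ d ∈ n.divisors, ψ (d : ZMod N)

end Fermat.Agent.S48.Eis1
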